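/-
`LambdaStar`: existence of a linear functional `lam` on the degree-3 cone cochains which is
*compatible with enlarging the set of places*.

Abstract (pure linear algebra) form.  Intended instantiation (S55 / Poitou–Tate):

* `ι`      : all finite places (primes), `S : Finset ι` the given finite set;
* `V2, V3` : global 2- and 3-cochains with values in `μ_p`, `d : V2 → V3` the differential;
* `C2 S'`  : the global 2-cochains of level `S'` (unramified outside `S'`);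
* `L2 w, L3 w` : local 2- and 3-cochains at `w`, `dl w` the local differential,
  `r2 w, r3 w` the restriction maps;
* `inv w`  : a linear functional on local 2-cochains extending the local invariant map on
  2-cocycles (any linear extension);
* `U2 w`   : the unramified local 2-cochains.

Hypotheses: reciprocity `∑_{w ∈ S'} inv_w (res_w x) = 0` for level-`S'` global 2-cocycles `x`,
for every finite `S' ⊇ S`; restriction of a level-`S'` cochain to `w ∉ S'` is unramified; `inv w`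
kills unramified 2-cocycles for `w ∉ S`.

Conclusion (`exists_lam`): there is a linear functional `lam` on `V3 × ∏_{v ∈ S} L2 v` such that
whenever the global component `A` is trivialised in a larger set `S'`, `A = d e` with `e` of level
`S'`, and `u w` (`w ∈ S' \ S`) are unramified local 2-cochains with `dl (u w) = res_w A`, then
`lam (A, B) = ∑_{v ∈ S} inv_v (B_v - res_v e) + ∑_{w ∈ S' \ S} inv_w (u_w - res_w e)`.

In particular no vanishing of `H^3` of the global group is needed to evaluate `lam` on cup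
products whose global component dies after enlarging `S`.
-/
import Mathlib

set_option autoImplicit false

namespace Fermat.Agent.S55.Arith.LambdaStar

open Finset

variable {k : Type*} [Field k]
variable {ι : Type*} [DecidableEq ι]
variable {V2 V3 : Type*} [AddCommGroup V2] [Module k V2] [AddCommGroup V3] [Module k V3]
variable {L2 L3 : ι → Type*} [∀ w, AddCommGroup (L2 w)] [∀ w, Module k (L2 w)]
  [∀ w, AddCommGroup (L3 w)] [∀ w, Module k (L3 w)]

variable (S : Finset ι) (d : V2 →ₗ[k] V3) (C2 : Finset ι → Submodule k V2)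
  (dl : ∀ w, L2 w →ₗ[k] L3 w) (r2 : ∀ w, V2 →ₗ[k] L2 w) (r3 : ∀ w, V3 →ₗ[k] L3 w)
  (inv : ∀ w, L2 w →ₗ[k] k) (U2 : ∀ w, Submodule k (L2 w))

/-- `IsTriv A S' e u`: the global 3-cochain `A` is trivialised at level `S' ⊇ S` by `e`, and `u w`
(`w ∈ S' \ S`) are unramified local 2-cochains with `dl (u w) = res_w A`. -/
def IsTriv (A : V3) (S' : Finset ι) (e : V2) (u : ∀ w, L2 w) : Prop :=
  S ⊆ S' ∧ e ∈ C2 S' ∧ d e = A ∧ ∀ w ∈ S', w ∉ S → u w ∈ U2 w ∧ dl w (u w) = r3 w A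

/-- The value attached to a trivialisation. -/
def val (B : ∀ v : ↥S, L2 v) (S' : Finset ι) (e : V2) (u : ∀ w, L2 w) : k :=
  ∑ v : ↥S, inv v (B v - r2 v e) + ∑ w ∈ S' \ S, inv w (u w - r2 w e)

variable {S d C2 dl r2 r3 inv U2}

omit [DecidableEq ι] in
theorem IsTriv.add {A₁ A₂ : V3} {S' : Finset ι} {e₁ e₂ : V2} {u₁ u₂ : ∀ w, L2 w}
    (h₁ : IsTriv S d C2 dl r3 U2 A₁ S' e₁ u₁) (h₂ : IsTriv S d C2 dl r3 U2 A₂ S' e₂ u₂) :
    IsTriv S d C2 dl r3 U2 (A₁ + A₂) S' (e₁ + e₂) (u₁ + u₂) := by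
  refine ⟨h₁.1, add_mem h₁.2.1 h₂.2.1, ?_, fun w hw hwS => ⟨?_, ?_⟩⟩
  · rw [map_add, h₁.2.2.1, h₂.2.2.1]
  · exact add_mem (h₁.2.2.2 w hw hwS).1 (h₂.2.2.2 w hw hwS).1
  · rw [Pi.add_apply, map_add, map_add, (h₁.2.2.2 w hw hwS).2, (h₂.2.2.2 w hw hwS).2]

omit [DecidableEq ι] in
theorem IsTriv.smul {A : V3} {S' : Finset ι} {e : V2} {u : ∀ w, L2 w} (c : k)
    (h : IsTriv S d C2 dl r3 U2 A S' e u) :
    IsTriv S d C2 dl r3 U2 (c • A) S' (c • e) (c • u) := by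
  refine ⟨h.1, Submodule.smul_mem _ c h.2.1, ?_, fun w hw hwS => ⟨?_, ?_⟩⟩
  · rw [map_smul, h.2.2.1]
  · exact Submodule.smul_mem _ c (h.2.2.2 w hw hwS).1
  · rw [Pi.smul_apply, map_smul, map_smul, (h.2.2.2 w hw hwS).2]

theorem val_add (B₁ B₂ : ∀ v : ↥S, L2 v) (S' : Finset ι) (e₁ e₂ : V2) (u₁ u₂ : ∀ w, L2 w) :
    val S r2 inv (B₁ + B₂) S' (e₁ + e₂) (u₁ + u₂) =
      val S r2 inv B₁ S' e₁ u₁ + val S r2 inv B₂ S' e₂ u₂ := by
  have e1 : ∀ v : ↥S, inv v ((B₁ + B₂) v - r2 v (e₁ + e₂)) =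
      inv v (B₁ v - r2 v e₁) + inv v (B₂ v - r2 v e₂) := by
    intro v
    rw [← map_add]
    congr 1
    rw [Pi.add_apply, map_add]
    abel
  have e2 : ∀ w : ι, inv w ((u₁ + u₂) w - r2 w (e₁ + e₂)) =
      inv w (u₁ w - r2 w e₁) + inv w (u₂ w - r2 w e₂) := by
    intro w
    rw [← map_add]
    congr 1
    rw [Pi.add_apply, map_add]
    abel
  unfold val
  rw [Finset.sum_congr rfl (fun v _ => e1 v), Finset.sum_congr rfl (fun w _ => e2 w),
    Finset.sum_add_distrib, Finset.sum_add_distrib]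
  ring

theorem val_smul (c : k) (B : ∀ v : ↥S, L2 v) (S' : Finset ι) (e : V2) (u : ∀ w, L2 w) :
    val S r2 inv (c • B) S' (c • e) (c • u) = c * val S r2 inv B S' e u := by
  have e1 : ∀ v : ↥S, inv v ((c • B) v - r2 v (c • e)) = c * inv v (B v - r2 v e) := by
    intro v
    rw [Pi.smul_apply, map_smul, ← smul_sub, map_smul, smul_eq_mul]
  have e2 : ∀ w : ι, inv w ((c • u) w - r2 w (c • e)) = c * inv w (u w - r2 w e) := by
    intro w
    rw [Pi.smul_apply, map_smul, ← smul_sub, map_smul, smul_eq_mul]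
  unfold val
  rw [Finset.sum_congr rfl (fun v _ => e1 v), Finset.sum_congr rfl (fun w _ => e2 w),
    ← Finset.mul_sum, ← Finset.mul_sum, mul_add]

section Hyp

variable (hmono : ∀ {S₁ S₂ : Finset ι}, S₁ ⊆ S₂ → C2 S₁ ≤ C2 S₂)
  (hcomm : ∀ (w : ι) (x : V2), dl w (r2 w x) = r3 w (d x))
  (hUres : ∀ (S' : Finset ι) (w : ι), w ∉ S' → ∀ e ∈ C2 S', r2 w e ∈ U2 w)
  (hUinv : ∀ w : ι, w ∉ S → ∀ u ∈ U2 w, dl w u = 0 → inv w u = 0)
  (hR : ∀ S' : Finset ι, S ⊆ S' → ∀ x ∈ C2 S', d x = 0 → ∑ w ∈ S', inv w (r2 w x) = 0)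

include hmono hcomm hUres in
/-- A trivialisation at level `S₁` extends to every larger level, with the same value. -/
theorem IsTriv.extend {A : V3} {S₁ S'' : Finset ι} {e : V2} {u : ∀ w, L2 w}
    (h : IsTriv S d C2 dl r3 U2 A S₁ e u) (hS : S₁ ⊆ S'') (B : ∀ v : ↥S, L2 v) :
    IsTriv S d C2 dl r3 U2 A S'' e (fun w => if w ∈ S₁ then u w else r2 w e) ∧
      val S r2 inv B S'' e (fun w => if w ∈ S₁ then u w else r2 w e) = val S r2 inv B S₁ e u := by
  refine ⟨⟨h.1.trans hS, hmono hS h.2.1, h.2.2.1, fun w _ hwS => ?_⟩, ?_⟩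
  · by_cases hw1 : w ∈ S₁
    · simpa only [hw1, if_true] using h.2.2.2 w hw1 hwS
    · simp only [hw1, if_false]
      exact ⟨hUres S₁ w hw1 e h.2.1, by rw [hcomm, h.2.2.1]⟩
  · unfold val
    congr 1
    have hsub : S₁ \ S ⊆ S'' \ S := Finset.sdiff_subset_sdiff hS subset_rfl
    rw [← Finset.sum_subset hsub]
    · refine Finset.sum_congr rfl fun w hw => ?_
      have hw1 : w ∈ S₁ := (Finset.mem_sdiff.1 hw).1
      simp only [hw1, if_true]
    · intro w _ hw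
      have hw1 : w ∉ S₁ := fun hw1 => by
        apply hw
        rw [Finset.mem_sdiff]
        refine ⟨hw1, ?_⟩
        rename_i hw''
        exact (Finset.mem_sdiff.1 hw'').2
      simp only [hw1, if_false, sub_self, map_zero]

include hUinv hR in
/-- Two trivialisations at the same level give the same value. -/
theorem val_eq_of_same {A : V3} {S'' : Finset ι} {e₁ e₂ : V2} {u₁ u₂ : ∀ w, L2 w}
    (h₁ : IsTriv S d C2 dl r3 U2 A S'' e₁ u₁) (h₂ : IsTriv S d C2 dl r3 U2 A S'' e₂ u₂)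
    (B : ∀ v : ↥S, L2 v) :
    val S r2 inv B S'' e₁ u₁ = val S r2 inv B S'' e₂ u₂ := by
  -- reciprocity for `e₁ - e₂`
  have hx : d (e₁ - e₂) = 0 := by rw [map_sub, h₁.2.2.1, h₂.2.2.1, sub_self]
  have hrec := hR S'' h₁.1 (e₁ - e₂) (sub_mem h₁.2.1 h₂.2.1) hx
  rw [← Finset.sum_sdiff h₁.1, ← Finset.sum_coe_sort S] at hrec
  -- unramified parts
  have hunr : ∀ w ∈ S'' \ S, inv w (u₁ w) = inv w (u₂ w) := by
    intro w hw
    obtain ⟨hw2, hwS⟩ := Finset.mem_sdiff.1 hw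
    have h0 := hUinv w hwS (u₁ w - u₂ w)
      (sub_mem (h₁.2.2.2 w hw2 hwS).1 (h₂.2.2.2 w hw2 hwS).1)
      (by rw [map_sub, (h₁.2.2.2 w hw2 hwS).2, (h₂.2.2.2 w hw2 hwS).2, sub_self])
    rw [map_sub, sub_eq_zero] at h0
    exact h0
  have e1 : ∀ v : ↥S, inv v (B v - r2 v e₁) =
      inv v (B v - r2 v e₂) - inv v (r2 v (e₁ - e₂)) := by
    intro v
    simp only [map_sub]
    ring
  have e2 : ∀ w ∈ S'' \ S, inv w (u₁ w - r2 w e₁) =
      inv w (u₂ w - r2 w e₂) - inv w (r2 w (e₁ - e₂)) := by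
    intro w hw
    have := hunr w hw
    simp only [map_sub]
    rw [this]
    ring
  unfold val
  rw [Finset.sum_congr rfl (fun v _ => e1 v), Finset.sum_congr rfl e2,
    Finset.sum_sub_distrib, Finset.sum_sub_distrib]
  linear_combination -hrec

include hmono hcomm hUres hUinv hR in
/-- Any two trivialisations give the same value. -/
theorem val_eq {A : V3} {S₁ S₂ : Finset ι} {e₁ e₂ : V2} {u₁ u₂ : ∀ w, L2 w}
    (h₁ : IsTriv S d C2 dl r3 U2 A S₁ e₁ u₁) (h₂ : IsTriv S d C2 dl r3 U2 A S₂ e₂ u₂)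
    (B : ∀ v : ↥S, L2 v) :
    val S r2 inv B S₁ e₁ u₁ = val S r2 inv B S₂ e₂ u₂ := by
  obtain ⟨t₁, v₁⟩ := IsTriv.extend (inv := inv) hmono hcomm hUres h₁
    (Finset.subset_union_left (s₂ := S₂)) B
  obtain ⟨t₂, v₂⟩ := IsTriv.extend (inv := inv) hmono hcomm hUres h₂
    (Finset.subset_union_right (s₁ := S₁)) B
  rw [← v₁, ← v₂]
  exact val_eq_of_same hUinv hR t₁ t₂ B

variable (S d C2 dl r3 U2) in
/-- The submodule of pairs `(A, B)` whose global component `A` can be trivialised after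
enlarging `S`. -/
def trivSubmodule (hmono : ∀ {S₁ S₂ : Finset ι}, S₁ ⊆ S₂ → C2 S₁ ≤ C2 S₂)
    (hcomm : ∀ (w : ι) (x : V2), dl w (r2 w x) = r3 w (d x))
    (hUres : ∀ (S' : Finset ι) (w : ι), w ∉ S' → ∀ e ∈ C2 S', r2 w e ∈ U2 w) :
    Submodule k (V3 × (∀ v : ↥S, L2 v)) where
  carrier := {z | ∃ (S' : Finset ι) (e : V2) (u : ∀ w, L2 w), IsTriv S d C2 dl r3 U2 z.1 S' e u}
  zero_mem' := ⟨S, 0, 0, subset_rfl, zero_mem _, map_zero _, fun w hw hwS => absurd hw hwS⟩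
  add_mem' := by
    rintro z₁ z₂ ⟨S₁, e₁, u₁, h₁⟩ ⟨S₂, e₂, u₂, h₂⟩
    obtain ⟨t₁, -⟩ := IsTriv.extend (inv := fun _ => (0 : _ →ₗ[k] k)) hmono hcomm hUres h₁
      (Finset.subset_union_left (s₂ := S₂)) 0
    obtain ⟨t₂, -⟩ := IsTriv.extend (inv := fun _ => (0 : _ →ₗ[k] k)) hmono hcomm hUres h₂
      (Finset.subset_union_right (s₁ := S₁)) 0
    exact ⟨_, _, _, t₁.add t₂⟩
  smul_mem' := by
    rintro c z ⟨S₁, e₁, u₁, h₁⟩
    exact ⟨_, _, _, h₁.smul c⟩

include hmono hcomm hUres hUinv hR in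
/-- **Existence of `lam` with the enlargement property `(★)`.** -/
theorem exists_lam :
    ∃ lam : (V3 × (∀ v : ↥S, L2 v)) →ₗ[k] k,
      ∀ (A : V3) (B : ∀ v : ↥S, L2 v) (S' : Finset ι) (e : V2) (u : ∀ w, L2 w),
        S ⊆ S' → e ∈ C2 S' → d e = A →
        (∀ w ∈ S', w ∉ S → u w ∈ U2 w ∧ dl w (u w) = r3 w A) →
        lam (A, B) = ∑ v : ↥S, inv v (B v - r2 v e) + ∑ w ∈ S' \ S, inv w (u w - r2 w e) := by
  classical
  set T := trivSubmodule S d C2 dl r3 U2 hmono hcomm hUres with hT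
  -- the functional on `T`
  have key : ∀ z : ↥T, ∃ c : k, ∀ (S' : Finset ι) (e : V2) (u : ∀ w, L2 w),
      IsTriv S d C2 dl r3 U2 z.1.1 S' e u → c = val S r2 inv z.1.2 S' e u := by
    rintro ⟨z, S₁, e₁, u₁, h₁⟩
    exact ⟨val S r2 inv z.2 S₁ e₁ u₁, fun S' e u h =>
      val_eq hmono hcomm hUres hUinv hR h₁ h z.2⟩
  choose φ hφ using key
  have hadd : ∀ z₁ z₂ : ↥T, φ (z₁ + z₂) = φ z₁ + φ z₂ := by
    rintro ⟨z₁, S₁, e₁, u₁, h₁⟩ ⟨z₂, S₂, e₂, u₂, h₂⟩
    obtain ⟨t₁, v₁⟩ := IsTriv.extend (inv := inv) hmono hcomm hUres h₁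
      (Finset.subset_union_left (s₂ := S₂)) z₁.2
    obtain ⟨t₂, v₂⟩ := IsTriv.extend (inv := inv) hmono hcomm hUres h₂
      (Finset.subset_union_right (s₁ := S₁)) z₂.2
    rw [hφ _ _ _ _ (t₁.add t₂), hφ ⟨z₁, S₁, e₁, u₁, h₁⟩ _ _ _ t₁, hφ ⟨z₂, S₂, e₂, u₂, h₂⟩ _ _ _ t₂]
    exact val_add _ _ _ _ _ _ _
  have hsmul : ∀ (c : k) (z : ↥T), φ (c • z) = c • φ z := by
    rintro c ⟨z, S₁, e₁, u₁, h₁⟩
    rw [hφ _ _ _ _ (h₁.smul c), hφ ⟨z, S₁, e₁, u₁, h₁⟩ _ _ _ h₁, smul_eq_mul]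
    exact val_smul _ _ _ _ _
  obtain ⟨lam, hlam⟩ := LinearMap.exists_extend
    ({ toFun := φ, map_add' := hadd, map_smul' := hsmul } : ↥T →ₗ[k] k)
  refine ⟨lam, fun A B S' e u hS he hde hu => ?_⟩
  have hz : (A, B) ∈ T := ⟨S', e, u, hS, he, hde, hu⟩
  have h1 : lam (A, B) = φ ⟨(A, B), hz⟩ := by
    have := congrArg (fun f => f ⟨(A, B), hz⟩) hlam
    simpa using this
  rw [h1]
  exact hφ ⟨(A, B), hz⟩ S' e u ⟨hS, he, hde, hu⟩

include hmono hcomm hUres hUinv hR in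
/-- Packaged form: `lam` with `(★)`, the formula on purely local classes, and the formula on
"coboundary-shaped" elements at level `S`. -/
theorem exists_lam' :
    ∃ lam : (V3 × (∀ v : ↥S, L2 v)) →ₗ[k] k,
      (∀ (A : V3) (B : ∀ v : ↥S, L2 v) (S' : Finset ι) (e : V2) (u : ∀ w, L2 w),
        S ⊆ S' → e ∈ C2 S' → d e = A →
        (∀ w ∈ S', w ∉ S → u w ∈ U2 w ∧ dl w (u w) = r3 w A) →
        lam (A, B) = ∑ v : ↥S, inv v (B v - r2 v e) + ∑ w ∈ S' \ S, inv w (u w - r2 w e)) ∧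
      (∀ B : ∀ v : ↥S, L2 v, lam (0, B) = ∑ v : ↥S, inv v (B v)) ∧
      (∀ (e : V2) (B : ∀ v : ↥S, L2 v), e ∈ C2 S →
        lam (d e, B) = ∑ v : ↥S, inv v (B v - r2 v e)) := by
  obtain ⟨lam, h⟩ := exists_lam hmono hcomm hUres hUinv hR
  refine ⟨lam, h, fun B => ?_, fun e B he => ?_⟩
  · have := h 0 B S 0 0 subset_rfl (zero_mem _) (map_zero _) (fun w hw hwS => absurd hw hwS)
    simpa using this
  · have := h (d e) B S e 0 subset_rfl he rfl (fun w hw hwS => absurd hw hwS)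
    simpa using this

end Hyp

end Fermat.Agent.S55.Arith.LambdaStar
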