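/-
`FrobGen`: modulo inertia, the decomposition group at a prime `w` is (topologically) generated
by a Frobenius element.  Finite-level form, in the Prelude's valuation-subring formalism:

* `exists_pow_of_ringEquiv` : a ring automorphism of a field of characteristic `w` acts on the
  fixed field of `Frob^e` as a power of Frobenius (Galois theory of finite fields);
* `exists_pow_sub_mem` : if `σ` is a Frobenius element at the valuation subring `A` and `τ` lies
  in the decomposition group, then for some `j`, `τ x - σ^j x` is a non-unit of `A` for all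
  `x ∈ A` fixed by a given power `σ^e`, `e ≠ 0`;
* `exists_pow_inv_mul_mem_fixingSubgroup` : for `A` a valuation subring of `AlgebraicClosure ℚ`
  over `w` and `F/ℚ` finite normal with the inertia group of `A` acting trivially on `F`
  (`F` unramified at `A`), every `τ` in the decomposition group of `A` agrees on `F` with a
  power `σ^j` of the Frobenius element.
-/
import Mathlib
import Fermat.Prelude.Def_EllipticCurve_FrobeniusTrace
import Fermat.Prelude.Def_FLTPrelim_Ramification
import Fermat.Agent.Lib.InertiaBridge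
import Fermat.Agent.S14.Wiring.Lifting

set_option autoImplicit false

namespace Fermat.Agent.S55.Arith.FrobGen

open scoped Pointwise

open Polynomial in
/-- A ring automorphism of a field of characteristic `w` acts on the fixed field of the `e`-th
iterate of Frobenius as a power of Frobenius. -/
theorem exists_pow_of_ringEquiv {k : Type*} [Field k] (w : ℕ) [hw : Fact w.Prime] [CharP k w]
    (e : ℕ) (he : e ≠ 0) (τ : k ≃+* k) :
    ∃ n : ℕ, ∀ y : k, y ^ (w ^ e) = y → τ y = y ^ (w ^ n) := by
  classical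
  let Lk : Subfield k := RingHom.eqLocusField (iterateFrobenius k w e) (RingHom.id k)
  have hmem : ∀ y : k, y ∈ Lk ↔ y ^ (w ^ e) = y := fun y => by
    show iterateFrobenius k w e y = RingHom.id k y ↔ _
    rw [iterateFrobenius_def]; rfl
  -- finiteness
  have hfin : Finite Lk := by
    have hne : (X ^ (w ^ e) - X : k[X]) ≠ 0 := by
      intro h
      have h1 := congrArg (fun q : k[X] => q.coeff 1) h
      have hwe : 1 < w ^ e := Nat.one_lt_pow he hw.out.one_lt
      simp [coeff_X_pow, coeff_X, hwe.ne] at h1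
    have hsub : (Lk : Set k) ⊆ ((X ^ (w ^ e) - X : k[X]).roots.toFinset : Set k) := by
      intro y hy
      have : y ^ (w ^ e) = y := (hmem y).1 hy
      simp [mem_roots hne, IsRoot, this]
    exact (Set.Finite.subset (Finset.finite_toSet _) hsub).to_subtype
  have hτ : ∀ y ∈ Lk, τ y ∈ Lk := fun y hy => (hmem _).2 (by rw [← map_pow, (hmem y).1 hy])
  have hτ' : ∀ y ∈ Lk, τ.symm y ∈ Lk := fun y hy => (hmem _).2 (by rw [← map_pow, (hmem y).1 hy])
  let τL : Lk ≃+* Lk :=
    { toFun := fun y => ⟨τ y, hτ y y.2⟩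
      invFun := fun y => ⟨τ.symm y, hτ' y y.2⟩
      left_inv := fun y => Subtype.ext (by simp)
      right_inv := fun y => Subtype.ext (by simp)
      map_mul' := fun a b => Subtype.ext (by simp)
      map_add' := fun a b => Subtype.ext (by simp) }
  have : CharP Lk w := by
    have : (w : Lk) = 0 := by
      apply Subtype.ext
      simp
    exact (CharP.charP_iff_prime_eq_zero hw.out).2 this
  let _ : Algebra (ZMod w) Lk := ZMod.algebra _ _
  let τA : Lk ≃ₐ[ZMod w] Lk := AlgEquiv.ofRingEquiv (f := τL) (fun c =>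
    RingHom.congr_fun (Subsingleton.elim ((τL : Lk →+* Lk).comp (algebraMap (ZMod w) Lk))
      (algebraMap (ZMod w) Lk)) c)
  obtain ⟨n, hn⟩ := (FiniteField.bijective_frobeniusAlgEquivOfAlgebraic_pow (ZMod w) Lk).2 τA
  refine ⟨n.1, fun y hy => ?_⟩
  have h1 := congrArg (fun f : Lk ≃ₐ[ZMod w] Lk => ((f ⟨y, (hmem y).2 hy⟩ : Lk) : k)) hn
  simp only at h1
  rw [AlgEquiv.coe_pow, FiniteField.coe_frobeniusAlgEquivOfAlgebraic_iterate, ZMod.card] at h1
  have h2 : τ y = ((τA ⟨y, (hmem y).2 hy⟩ : Lk) : k) := rfl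
  rw [h2, ← h1]
  simp

section general

variable {L : Type*} [Field L] {K : Type*} [Field K] [Algebra K L]

/-- Elements of the decomposition group preserve the valuation subring. -/
theorem map_mem_of_mem_decomposition (A : ValuationSubring L) (σ : L ≃ₐ[K] L)
    (hσ : σ ∈ A.decompositionSubgroup K) {x : L} (hx : x ∈ A) : σ x ∈ A := by
  have h1 : σ • x ∈ σ • A := ValuationSubring.smul_mem_pointwise_smul _ x A hx
  have h2 : σ • A = A := hσ
  rw [h2] at h1
  exact h1

/-- The residue class of the image under an element of the decomposition group. -/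
theorem residue_map (A : ValuationSubring L) (d : A.decompositionSubgroup K) {x : L} (hx : x ∈ A) :
    IsLocalRing.residue A ⟨(d : L ≃ₐ[K] L) x, map_mem_of_mem_decomposition A _ d.2 hx⟩ =
      d • IsLocalRing.residue A ⟨x, hx⟩ := by
  rw [← IsLocalRing.ResidueField.residue_smul]
  rfl

/-- Powers of a Frobenius element act on the residue field as iterated `w`-th powers. -/
theorem frob_pow_smul (A : ValuationSubring L) {σ : L ≃ₐ[K] L} {w : ℕ}
    (hσ : A.IsFrobeniusAt σ w) (j : ℕ) (y : IsLocalRing.ResidueField A) :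
    ((⟨σ, hσ.mem_decompositionSubgroup⟩ : A.decompositionSubgroup K) ^ j) • y = y ^ (w ^ j) := by
  induction j generalizing y with
  | zero => simp
  | succ j ih => rw [pow_succ', mul_smul, ih, hσ.smul_residue_eq, ← pow_mul, ← pow_succ]

/-- Modulo the maximal ideal, an element of the decomposition group acts on the `σ^e`-fixed
elements of `A` as a power of the Frobenius element `σ`. -/
theorem exists_pow_sub_mem (A : ValuationSubring L) {w : ℕ} (hw : w.Prime)
    (hA : A.LiesOverPrime w) {σ τ : L ≃ₐ[K] L} (hσ : A.IsFrobeniusAt σ w)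
    (hτ : τ ∈ A.decompositionSubgroup K) (e : ℕ) (he : e ≠ 0) :
    ∃ j : ℕ, ∀ x : L, x ∈ A → (σ ^ e) x = x → τ x - (σ ^ j) x ∈ A.nonunits := by
  have : Fact w.Prime := ⟨hw⟩
  set k := IsLocalRing.ResidueField A
  -- characteristic
  have hchar : CharP k w := by
    refine (CharP.charP_iff_prime_eq_zero hw).2 ?_
    have h1 : ((w : A) : L) ∈ A.nonunits := by
      have : ((w : A) : L) = (w : L) := by simp
      rw [this]; exact hA
    have h2 : (w : A) ∈ IsLocalRing.maximalIdeal A :=
      (A.valuation_lt_one_iff _).2 (A.mem_nonunits_iff.1 h1)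
    have h3 : IsLocalRing.residue A (w : A) = 0 := by
      rw [IsLocalRing.residue_eq_zero_iff]
      exact h2
    rw [← h3, map_natCast]
  let dσ : A.decompositionSubgroup K := ⟨σ, hσ.mem_decompositionSubgroup⟩
  let dτ : A.decompositionSubgroup K := ⟨τ, hτ⟩
  obtain ⟨n, hn⟩ := exists_pow_of_ringEquiv (k := k) w e he
    (MulSemiringAction.toRingEquiv (A.decompositionSubgroup K) k dτ)
  refine ⟨n, fun x hx hfix => ?_⟩
  -- the residue class of `x` is fixed by `Frob^e`
  have hcoe : ∀ j : ℕ, ((dσ ^ j : A.decompositionSubgroup K) : L ≃ₐ[K] L) = σ ^ j := fun j => rfl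
  have hxe : (IsLocalRing.residue A ⟨x, hx⟩) ^ (w ^ e) = IsLocalRing.residue A ⟨x, hx⟩ := by
    rw [← frob_pow_smul A hσ e, ← residue_map A (dσ ^ e) hx]
    congr 1
    apply Subtype.ext
    show ((dσ ^ e : A.decompositionSubgroup K) : L ≃ₐ[K] L) x = x
    rw [hcoe, hfix]
  have h1 : dτ • IsLocalRing.residue A ⟨x, hx⟩ = (IsLocalRing.residue A ⟨x, hx⟩) ^ (w ^ n) :=
    hn _ hxe
  have h2 : (dσ ^ n) • IsLocalRing.residue A ⟨x, hx⟩ = (IsLocalRing.residue A ⟨x, hx⟩) ^ (w ^ n) :=
    frob_pow_smul A hσ n _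
  rw [← residue_map A dτ hx] at h1
  rw [← residue_map A (dσ ^ n) hx] at h2
  have h3 : IsLocalRing.residue A
      (⟨(dτ : L ≃ₐ[K] L) x, map_mem_of_mem_decomposition A _ dτ.2 hx⟩ -
        ⟨((dσ ^ n : A.decompositionSubgroup K) : L ≃ₐ[K] L) x,
          map_mem_of_mem_decomposition A _ (dσ ^ n).2 hx⟩) = 0 := by
    rw [map_sub, h1, h2, sub_self]
  rw [IsLocalRing.residue_eq_zero_iff] at h3
  have h4 := (A.valuation_lt_one_iff _).1 h3
  exact A.mem_nonunits_iff.2 h4

end general

local notation "Qb" => AlgebraicClosure ℚ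
local notation "Gq" => (AlgebraicClosure ℚ ≃ₐ[ℚ] AlgebraicClosure ℚ)

/-- **Frobenius generates the decomposition group modulo inertia (finite level).**
`A` a valuation subring of `AlgebraicClosure ℚ` over the prime `w`, `σ` a Frobenius element at
`A`, `F/ℚ` finite normal on which the inertia group of `A` acts trivially.  Then every `τ` in the
decomposition group of `A` agrees on `F` with some power `σ ^ j`. -/
theorem exists_pow_inv_mul_mem_fixingSubgroup (A : ValuationSubring Qb) {w : ℕ} (hw : w.Prime)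
    (hA : A.LiesOverPrime w) {σ τ : Gq} (hσ : A.IsFrobeniusAt σ w)
    (hτ : τ ∈ A.decompositionSubgroup ℚ)
    (F : IntermediateField ℚ Qb) [FiniteDimensional ℚ F] [Normal ℚ F]
    (hF : A.inertiaSubgroupIn ℚ ≤ F.fixingSubgroup) :
    ∃ j : ℕ, (σ ^ j)⁻¹ * τ ∈ F.fixingSubgroup := by
  have hker : F.fixingSubgroup = (AlgEquiv.restrictNormalHom (F := ℚ) (K₁ := Qb) F).ker :=
    (@IntermediateField.restrictNormalHom_ker ℚ Qb _ _ _ F ‹Normal ℚ F›).symm
  -- a power of `σ` fixing `F`
  set e := orderOf (AlgEquiv.restrictNormalHom (F := ℚ) (K₁ := Qb) F σ) with he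
  have he0 : e ≠ 0 := (orderOf_pos _).ne'
  have hσe : σ ^ e ∈ F.fixingSubgroup := by
    rw [hker, MonoidHom.mem_ker, map_pow, he, pow_orderOf_eq_one]
  obtain ⟨j, hj⟩ := exists_pow_sub_mem (K := ℚ) A hw hA hσ hτ e he0
  refine ⟨j, ?_⟩
  have hσj : σ ^ j ∈ A.decompositionSubgroup ℚ :=
    Subgroup.pow_mem _ hσ.mem_decompositionSubgroup j
  have hinv : (σ ^ j)⁻¹ ∈ A.decompositionSubgroup ℚ := Subgroup.inv_mem _ hσj
  -- the inertia lift
  have hcond : ∀ x : Qb, x ∈ F → IsIntegral ℤ x → ((σ ^ j)⁻¹ * τ) x - x ∈ A.nonunits := by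
    intro x hxF hxint
    have hxA : x ∈ A := Fermat.Agent.Lib.FrobProfinite.mem_valuationSubring_of_isIntegral A hxint
    have h1 : τ x - (σ ^ j) x ∈ A.nonunits :=
      hj x hxA ((IntermediateField.mem_fixingSubgroup_iff F _).1 hσe x hxF)
    have h2 : ((σ ^ j)⁻¹ * τ) x - x = (σ ^ j)⁻¹ (τ x - (σ ^ j) x) := by
      rw [map_sub, AlgEquiv.mul_apply]
      congr 1
      exact ((σ ^ j).symm_apply_apply x).symm
    rw [h2]
    exact (Fermat.Agent.S14.Wiring.Lifting.map_mem_nonunits_iff_of_mem_decomposition A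
      ((σ ^ j)⁻¹) hinv _).2 h1
  obtain ⟨τ', hτ', hagree⟩ :=
    Fermat.Agent.Lib.InertiaBridge.exists_lift_inertia F A w hw hA ((σ ^ j)⁻¹ * τ) hcond
  rw [IntermediateField.mem_fixingSubgroup_iff]
  intro x hx
  rw [← hagree x hx]
  exact (IntermediateField.mem_fixingSubgroup_iff F _).1 (hF hτ') x hx

end Fermat.Agent.S55.Arith.FrobGen
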