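/-
`UnramCore`: procyclic vanishing of `H²` in cochain form (pure group theory).

`H` a group, `N' ≤ N` normal subgroups of `H` ("unramified levels"), `H ⧸ N'` finite and generated
by the class of `φ` ("Frobenius"), `φ ^ m ∈ N`, and `p` divides every `t` with `φ ^ (m * t) ∈ N'`
(the level `N'` is "`p` times deeper" than `N`).  Let `M : Rep k H` be killed by `p`, with `N'`
acting trivially.  Then every 2-cocycle `f : H × H → M` which is right-`N`-invariant in both
variables is the coboundary of a right-`N'`-invariant 1-cochain.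

(Inflation from the cyclic group `H ⧸ N` to the cyclic group `H ⧸ N'` multiplies the
`Ĥ⁰`-invariant `∑_{i<n} f (φ^i, φ)` of a 2-cocycle by the index, which is divisible by `p`.)
-/
import Mathlib
import Fermat.Agent.S55.CycH2.Basic

set_option autoImplicit false

universe u

open groupCohomology Finset

namespace Fermat.Agent.S55.Arith.UnramCore

/-- Sum of a periodic function over a multiple of its period. -/
theorem sum_range_mul_of_periodic {A : Type*} [AddCommMonoid A] (u : ℕ → A) (n : ℕ)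
    (hu : ∀ i, u (i + n) = u i) (c : ℕ) :
    ∑ i ∈ range (n * c), u i = c • ∑ i ∈ range n, u i := by
  have hper : ∀ (q i : ℕ), u (n * q + i) = u i := by
    intro q
    induction q with
    | zero => intro i; simp
    | succ q ih =>
      intro i
      have : n * (q + 1) + i = (n * q + i) + n := by ring
      rw [this, hu, ih]
  induction c with
  | zero => simp
  | succ c ih =>
    rw [Nat.mul_succ, Finset.sum_range_add, ih, succ_nsmul]
    congr 1
    exact Finset.sum_congr rfl fun i _ => hper c i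

variable {k H : Type u} [CommRing k] [Group H]

/-- **Procyclic vanishing of `H²`, cochain form.** -/
theorem exists_primitive (M : Rep k H) (p : ℕ) (hpM : ∀ a : M, p • a = 0)
    (N N' : Subgroup H) [N.Normal] [N'.Normal] (hle : N' ≤ N) [Finite (H ⧸ N')]
    (φ : H) (hφ : ∀ g : H, ∃ j : ℕ, (φ ^ j)⁻¹ * g ∈ N')
    (m : ℕ) (hm : φ ^ m ∈ N) (hp : ∀ t : ℕ, φ ^ (m * t) ∈ N' → p ∣ t)
    (hM : ∀ s ∈ N', M.ρ s = 1)
    (f : H × H → M) (hf : f ∈ cocycles₂ M)
    (hfN : ∀ g g' s s' : H, s ∈ N → s' ∈ N → f (g * s, g' * s') = f (g, g')) :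
    ∃ x : H → M, (∀ g s : H, s ∈ N' → x (g * s) = x g) ∧ (d₁₂ M).hom x = f := by
  classical
  have : Fintype (H ⧸ N') := Fintype.ofFinite _
  have : Representation.IsTrivial (M.ρ.comp N'.subtype) :=
    ⟨fun s => hM s.1 s.2⟩
  let M' : Rep k (H ⧸ N') := Rep.ofQuotient M N'
  -- the descended cochain
  let fb : (H ⧸ N') × (H ⧸ N') → M' := fun q => f (q.1.out, q.2.out)
  have hfb : ∀ g h : H, fb ((g : H ⧸ N'), (h : H ⧸ N')) = f (g, h) := by
    intro g h
    obtain ⟨s, hs⟩ := QuotientGroup.mk_out_eq_mul N' g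
    obtain ⟨s', hs'⟩ := QuotientGroup.mk_out_eq_mul N' h
    show f (((g : H ⧸ N')).out, ((h : H ⧸ N')).out) = f (g, h)
    rw [hs, hs']
    exact hfN g h s s' (hle s.2) (hle s'.2)
  have hρ : ∀ (g : H) (a : M), M'.ρ (g : H ⧸ N') a = M.ρ g a := by
    intro g a
    exact Representation.ofQuotient_coe_apply M.ρ N' g a
  -- it is a cocycle
  have hfbc : fb ∈ cocycles₂ M' := by
    rw [mem_cocycles₂_iff]
    intro a b c
    obtain ⟨g, rfl⟩ := QuotientGroup.mk_surjective a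
    obtain ⟨h, rfl⟩ := QuotientGroup.mk_surjective b
    obtain ⟨j, rfl⟩ := QuotientGroup.mk_surjective c
    have e1 : ((g : H ⧸ N') * (h : H ⧸ N')) = ((g * h : H) : H ⧸ N') := rfl
    have e2 : ((h : H ⧸ N') * (j : H ⧸ N')) = ((h * j : H) : H ⧸ N') := rfl
    rw [e1, e2, hfb, hfb, hfb, hfb, hρ]
    exact (mem_cocycles₂_iff f).1 hf g h j
  -- generator
  have hgen : ∀ x : H ⧸ N', x ∈ Subgroup.zpowers ((φ : H ⧸ N')) := by
    intro x
    obtain ⟨g, rfl⟩ := QuotientGroup.mk_surjective x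
    obtain ⟨j, hj⟩ := hφ g
    refine ⟨(j : ℤ), ?_⟩
    show ((φ : H ⧸ N')) ^ (j : ℤ) = (g : H ⧸ N')
    rw [zpow_natCast]
    exact (QuotientGroup.eq (s := N')).2 hj
  obtain ⟨a, -, ha, hcob⟩ :=
    Fermat.Agent.S55.CycH2.exists_sub_cyc_mem_coboundaries₂ M' (φ : H ⧸ N') hgen fb hfbc
  -- the invariant vanishes
  set n' := orderOf ((φ : H ⧸ N')) with hn'
  set m₀ := orderOf ((φ : H ⧸ N)) with hm₀
  have hpow' : ∀ i : ℕ, ((φ : H ⧸ N')) ^ i = ((φ ^ i : H) : H ⧸ N') := fun i => rfl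
  have hφn' : φ ^ n' ∈ N' := by
    rw [← QuotientGroup.eq_one_iff, ← hpow', hn', pow_orderOf_eq_one]
  have hφm₀ : φ ^ m₀ ∈ N := by
    have : ((φ : H ⧸ N)) ^ m₀ = 1 := by rw [hm₀, pow_orderOf_eq_one]
    exact (QuotientGroup.eq_one_iff (N := N) (φ ^ m₀)).1 this
  have hdvd1 : m₀ ∣ n' := by
    rw [hm₀]
    apply orderOf_dvd_of_pow_eq_one
    exact (QuotientGroup.eq_one_iff (N := N) (φ ^ n')).2 (hle hφn')
  have hdvd2 : m₀ ∣ m := by
    rw [hm₀]
    apply orderOf_dvd_of_pow_eq_one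
    exact (QuotientGroup.eq_one_iff (N := N) (φ ^ m)).2 hm
  obtain ⟨c, hc⟩ := hdvd1
  obtain ⟨d, hd⟩ := hdvd2
  have hpc : p ∣ c := by
    apply hp c
    have : m * c = n' * d := by rw [hd, hc]; ring
    rw [this, pow_mul]
    exact N'.pow_mem hφn' d
  have hu : ∀ i : ℕ, f (φ ^ (i + m₀), φ) = f (φ ^ i, φ) := by
    intro i
    have := hfN (φ ^ i) φ (φ ^ m₀) 1 hφm₀ N.one_mem
    rw [mul_one, ← pow_add] at this
    exact this
  have ha0 : a = 0 := by
    rw [ha]
    have e : ∀ i : ℕ, fb (((φ : H ⧸ N')) ^ i, (φ : H ⧸ N')) = f (φ ^ i, φ) := by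
      intro i
      rw [hpow', hfb]
    rw [Finset.sum_congr rfl (fun i _ => e i), hc,
      sum_range_mul_of_periodic (fun i => f (φ ^ i, φ)) m₀ hu c]
    obtain ⟨c', rfl⟩ := hpc
    rw [mul_nsmul, hpM, smul_zero]
  rw [ha0, Fermat.Agent.S55.CycH2.cyc_zero, sub_zero] at hcob
  obtain ⟨xb, hxb⟩ := hcob
  refine ⟨fun g => xb (g : H ⧸ N'), fun g s hs => ?_, ?_⟩
  · show xb ((g * s : H) : H ⧸ N') = xb (g : H ⧸ N')
    congr 1
    exact (QuotientGroup.eq (s := N')).2 (by simpa using hs)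
  · funext ⟨g, h⟩
    have h1 := congrFun hxb ((g : H ⧸ N'), (h : H ⧸ N'))
    rw [hfb, d₁₂_hom_apply] at h1
    rw [d₁₂_hom_apply, ← h1]
    show M.ρ g (xb (h : H ⧸ N')) - xb ((g * h : H) : H ⧸ N') + xb (g : H ⧸ N') = _
    rw [← hρ]
    rfl

end Fermat.Agent.S55.Arith.UnramCore
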