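/-
`UnramLocal`: unramified local cochains at a prime `w` in the Prelude's formalism, and the
vanishing of unramified `H²` in cochain form.

For `w : Nat.Primes`, `H = primeLocalGaloisGroup w`, `r = primeLocalToGlobal w`:

* `IsUnram₁ w f`, `IsUnram₂ w f` : the local cochain `f` is constant modulo `r⁻¹(Fix F)` for a
  finite extension `F/ℚ` unramified outside a finite set `S'` of primes with `w ∉ S'`;
* `isUnram₂_comp_of_isLevelConstantS₂` : the restriction to `w ∉ S'` of a level-`S'` global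
  cochain is unramified (by definition);
* `exists_isUnram₁_d₁₂_eq` : **an unramified local 2-cocycle with values in an unramified module
  killed by a prime `p ≠ w` is the coboundary of an unramified local 1-cochain**
  (`H²(Ẑ, M) = 0`, cochain form);
* `mem_levelCoboundaries₂_of_isUnram₂` : in particular it is a continuous coboundary.

Inputs: a Frobenius element at the place (`S54.Frobenius.exists_isFrobeniusAt`), lifting of
inertia (`Lib.InertiaBridge`, through `FrobGen`), the image of the local Galois group is the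
decomposition group (`Glue.LocalRange`), Frobenius and inertia on `p`-power roots of unity
(`S31.Cyclo`), and the abstract procyclic vanishing `UnramCore.exists_primitive`.
-/
import Mathlib
import Fermat.Prelude.Def_GroupCohomology_ContinuousUnramified
import Fermat.Agent.S55.Arith.UnramCore
import Fermat.Agent.S55.Arith.FrobGen
import Fermat.Agent.S55.Glue.LocalRange
import Fermat.Agent.S55.Glue.LevelGalois
import Fermat.Agent.S54.Frobenius
import Fermat.Agent.S31.Cyclo

set_option autoImplicit false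

namespace Fermat.Agent.S55.Arith.Unram

open groupCohomology ExtCitation IntermediateField
open scoped Pointwise

local notation "Qb" => AlgebraicClosure ℚ
local notation "Gq" => (AlgebraicClosure ℚ ≃ₐ[ℚ] AlgebraicClosure ℚ)

local instance isAlgebraicQbar_ul : Algebra.IsAlgebraic ℚ (AlgebraicClosure ℚ) :=
  AlgebraicClosure.isAlgebraic ℚ
local instance isAlgClosureQbar_ul : IsAlgClosure ℚ (AlgebraicClosure ℚ) :=
  ⟨inferInstance, inferInstance⟩
local instance normalQbar_ul : Normal ℚ (AlgebraicClosure ℚ) :=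
  IsAlgClosure.normal ℚ (AlgebraicClosure ℚ)

/-- If `a ^ (p - 1)` is not `1` modulo `p ^ K`, every exponent `t` with `a ^ t ≡ 1` modulo
`p ^ K` is divisible by `p`. -/
theorem dvd_of_pow_modEq_one {p : ℕ} (hp : p.Prime) {a K t : ℕ}
    (hna : ¬ a ^ (p - 1) ≡ 1 [MOD p ^ K]) (ht : a ^ t ≡ 1 [MOD p ^ K]) : p ∣ t := by
  by_contra hpt
  have ht0 : t ≠ 0 := fun h => hpt (h ▸ dvd_zero p)
  have hK : 0 < K := by
    rcases Nat.eq_zero_or_pos K with h | h
    · exfalso
      apply hna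
      rw [h, pow_zero]
      exact Nat.modEq_one
    · exact h
  have h1 : ((a : ZMod (p ^ K))) ^ t = 1 := by
    have := (ZMod.natCast_eq_natCast_iff (a ^ t) 1 (p ^ K)).2 ht
    simpa using this
  have hu : IsUnit (a : ZMod (p ^ K)) := IsUnit.of_pow_eq_one h1 ht0
  obtain ⟨u, hu'⟩ := hu
  have h2 : ((a : ZMod (p ^ K))) ^ (Nat.totient (p ^ K)) = 1 := by
    rw [← hu', ← Units.val_pow_eq_pow_val, ZMod.pow_totient, Units.val_one]
  have h3 := pow_gcd_eq_one.2 ⟨h1, h2⟩
  have hcop : Nat.Coprime t (p ^ (K - 1)) :=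
    Nat.Coprime.pow_right _ ((Nat.Prime.coprime_iff_not_dvd hp).2 hpt).symm
  have hgcd : t.gcd (Nat.totient (p ^ K)) ∣ p - 1 := by
    rw [Nat.totient_prime_pow hp hK]
    exact (Nat.Coprime.dvd_mul_left (Nat.Coprime.coprime_dvd_left (Nat.gcd_dvd_left _ _) hcop)).1
      (Nat.gcd_dvd_right _ _)
  obtain ⟨c, hc⟩ := hgcd
  have h4 : ((a : ZMod (p ^ K))) ^ (p - 1) = 1 := by
    rw [hc, pow_mul, h3, one_pow]
  apply hna
  exact (ZMod.natCast_eq_natCast_iff (a ^ (p - 1)) 1 (p ^ K)).1 (by simpa using h4)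

/-- The Prelude's distinguished place above `w` lies over `w`. -/
theorem liesOverPrime_primeLocalPlace (w : Nat.Primes) :
    (primeLocalPlace w).LiesOverPrime (w : ℕ) := by
  haveI : Fact (w : ℕ).Prime := ⟨w.2⟩
  show (((w : ℕ) : Qb)) ∈ (padicPlace (w : ℕ)).nonunits
  rw [ValuationSubring.mem_nonunits_iff_or]
  right
  rw [mem_padicPlace_iff]
  intro h
  have h1 : ‖padicEmbedding (w : ℕ) ((((w : ℕ) : Qb))⁻¹)‖ = ((w : ℕ) : ℝ) := by
    rw [map_inv₀, norm_inv, Fermat.Agent.S55.Glue.LocalRange.norm_padicEmbedding_natCast_self,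
      inv_inv]
  have h2 : ‖padicEmbedding (w : ℕ) ((((w : ℕ) : Qb))⁻¹)‖ ≤ 1 := by
    exact_mod_cast h
  rw [h1] at h2
  have h3 : (1 : ℝ) < ((w : ℕ) : ℝ) := by exact_mod_cast w.2.one_lt
  linarith

variable (w : Nat.Primes)

/-- An unramified local 1-cochain at `w`: constant modulo the preimage of `Fix F` for a finite
`F/ℚ` unramified outside a finite set of primes not containing `w`. -/
def IsUnram₁ {X : Type*} (f : primeLocalGaloisGroup w → X) : Prop :=
  ∃ S' : Finset Nat.Primes, w ∉ S' ∧ ∃ F : IntermediateField ℚ Qb, F.IsUnramifiedOutside S' ∧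
    ∀ g s : primeLocalGaloisGroup w, primeLocalToGlobal w s ∈ F.fixingSubgroup → f (g * s) = f g

/-- An unramified local 2-cochain at `w`. -/
def IsUnram₂ {X : Type*} (f : primeLocalGaloisGroup w × primeLocalGaloisGroup w → X) : Prop :=
  ∃ S' : Finset Nat.Primes, w ∉ S' ∧ ∃ F : IntermediateField ℚ Qb, F.IsUnramifiedOutside S' ∧
    ∀ g g' s s' : primeLocalGaloisGroup w, primeLocalToGlobal w s ∈ F.fixingSubgroup →
      primeLocalToGlobal w s' ∈ F.fixingSubgroup → f (g * s, g' * s') = f (g, g')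

variable {w}

theorem IsUnram₁.isLevelConstant₁ {X : Type*} {f : primeLocalGaloisGroup w → X}
    (hf : IsUnram₁ w f) : IsLevelConstant₁ (primeLocalToGlobal w) f := by
  obtain ⟨S', -, F, hF, h⟩ := hf
  exact ⟨F, hF.1, h⟩

theorem IsUnram₂.isLevelConstant₂ {X : Type*}
    {f : primeLocalGaloisGroup w × primeLocalGaloisGroup w → X}
    (hf : IsUnram₂ w f) : IsLevelConstant₂ (primeLocalToGlobal w) f := by
  obtain ⟨S', -, F, hF, h⟩ := hf
  exact ⟨F, hF.1, h⟩

/-- The restriction to `w ∉ S'` of a level-`S'` global 1-cochain is unramified. -/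
theorem isUnram₁_comp_of_isLevelConstantS₁ {S' : Finset Nat.Primes} (hw : w ∉ S') {X : Type*}
    {f : Gq → X} (hf : IsLevelConstantS₁ S' f) : IsUnram₁ w (f ∘ primeLocalToGlobal w) := by
  obtain ⟨F, hF, h⟩ := hf
  refine ⟨S', hw, F, hF, fun g s hs => ?_⟩
  simp only [Function.comp_apply, map_mul]
  exact h _ _ hs

/-- The restriction to `w ∉ S'` of a level-`S'` global 2-cochain is unramified. -/
theorem isUnram₂_comp_of_isLevelConstantS₂ {S' : Finset Nat.Primes} (hw : w ∉ S') {X : Type*}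
    {f : Gq × Gq → X} (hf : IsLevelConstantS₂ S' f) :
    IsUnram₂ w (f ∘ Prod.map (primeLocalToGlobal w) (primeLocalToGlobal w)) := by
  obtain ⟨F, hF, h⟩ := hf
  refine ⟨S', hw, F, hF, fun g g' s s' hs hs' => ?_⟩
  simp only [Function.comp_apply, Prod.map_apply, map_mul]
  exact h _ _ _ _ hs hs'

theorem IsUnram₁.add {X : Type*} [Add X] {f f' : primeLocalGaloisGroup w → X}
    (hf : IsUnram₁ w f) (hf' : IsUnram₁ w f') : IsUnram₁ w (f + f') := by
  obtain ⟨S, hS, F, hF, h⟩ := hf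
  obtain ⟨S', hS', F', hF', h'⟩ := hf'
  refine ⟨S ∪ S', by simp [hS, hS'], F ⊔ F',
    (hF.mono Finset.subset_union_left).sup (hF'.mono Finset.subset_union_right), fun g s hs => ?_⟩
  simp only [Pi.add_apply]
  rw [h g s (IntermediateField.fixingSubgroup_antitone le_sup_left hs),
    h' g s (IntermediateField.fixingSubgroup_antitone le_sup_right hs)]

theorem IsUnram₂.add {X : Type*} [Add X]
    {f f' : primeLocalGaloisGroup w × primeLocalGaloisGroup w → X}
    (hf : IsUnram₂ w f) (hf' : IsUnram₂ w f') : IsUnram₂ w (f + f') := by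
  obtain ⟨S, hS, F, hF, h⟩ := hf
  obtain ⟨S', hS', F', hF', h'⟩ := hf'
  refine ⟨S ∪ S', by simp [hS, hS'], F ⊔ F',
    (hF.mono Finset.subset_union_left).sup (hF'.mono Finset.subset_union_right),
    fun g g' s s' hs hs' => ?_⟩
  simp only [Pi.add_apply]
  rw [h g g' s s' (IntermediateField.fixingSubgroup_antitone le_sup_left hs)
      (IntermediateField.fixingSubgroup_antitone le_sup_left hs'),
    h' g g' s s' (IntermediateField.fixingSubgroup_antitone le_sup_right hs)
      (IntermediateField.fixingSubgroup_antitone le_sup_right hs')]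

theorem IsUnram₁.comp {X Y : Type*} {f : primeLocalGaloisGroup w → X} (hf : IsUnram₁ w f)
    (φ : X → Y) : IsUnram₁ w (φ ∘ f) := by
  obtain ⟨S, hS, F, hF, h⟩ := hf
  exact ⟨S, hS, F, hF, fun g s hs => by simp only [Function.comp_apply, h g s hs]⟩

theorem IsUnram₂.comp {X Y : Type*}
    {f : primeLocalGaloisGroup w × primeLocalGaloisGroup w → X} (hf : IsUnram₂ w f)
    (φ : X → Y) : IsUnram₂ w (φ ∘ f) := by
  obtain ⟨S, hS, F, hF, h⟩ := hf
  exact ⟨S, hS, F, hF, fun g g' s s' hs hs' => by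
    simp only [Function.comp_apply, h g g' s s' hs hs']⟩

variable (w) in
theorem isUnram₁_const {X : Type*} (x : X) :
    IsUnram₁ w (fun _ : primeLocalGaloisGroup w => x) :=
  ⟨∅, by simp, ⊥, IntermediateField.isUnramifiedOutside_bot _, fun _ _ _ => rfl⟩

variable (w) in
theorem isUnram₂_const {X : Type*} (x : X) :
    IsUnram₂ w (fun _ : primeLocalGaloisGroup w × primeLocalGaloisGroup w => x) :=
  ⟨∅, by simp, ⊥, IntermediateField.isUnramifiedOutside_bot _, fun _ _ _ _ _ _ => rfl⟩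

/-- **The unramified tower.**  Above a finite Galois level `F₁` unramified at `w` there is a
finite Galois level `F₂` unramified at `w`, and a lift `φ` of a Frobenius element, such that
the image of the local Galois group in `Gal(F₂/ℚ)` is generated by `φ`, and the index of the
two levels (on the local group) is divisible by `p`. -/
theorem exists_tower (p : ℕ) [hp : Fact p.Prime] (w : Nat.Primes) (hwp : (w : ℕ) ≠ p)
    (S₁ : Finset Nat.Primes) (hwS : w ∉ S₁) (F₁ : IntermediateField ℚ Qb)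
    (hF₁ : F₁.IsUnramifiedOutside S₁) [Normal ℚ F₁] :
    ∃ (φ : primeLocalGaloisGroup w) (m : ℕ) (F₂ : IntermediateField ℚ Qb),
      F₁ ≤ F₂ ∧ F₂.IsUnramifiedOutside (S₁ ∪ {pPrime p}) ∧ Normal ℚ F₂ ∧
      primeLocalToGlobal w (φ ^ m) ∈ F₁.fixingSubgroup ∧
      (∀ g : primeLocalGaloisGroup w, ∃ j : ℕ,
        primeLocalToGlobal w ((φ ^ j)⁻¹ * g) ∈ F₂.fixingSubgroup) ∧
      (∀ t : ℕ, primeLocalToGlobal w (φ ^ (m * t)) ∈ F₂.fixingSubgroup → p ∣ t) := by
  classical
  have hw : (w : ℕ).Prime := w.2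
  set A := primeLocalPlace w with hAdef
  have hA : A.LiesOverPrime (w : ℕ) := liesOverPrime_primeLocalPlace w
  haveI : FiniteDimensional ℚ F₁ := hF₁.1
  -- Frobenius element and its local lift
  obtain ⟨σ, hσ⟩ := Fermat.Agent.S54.Frobenius.exists_isFrobeniusAt A hw hA
  have hσD : σ ∈ (primeLocalToGlobal w).range := by
    rw [Fermat.Agent.S55.Glue.LocalRange.range_primeLocalToGlobal]
    exact hσ.mem_decompositionSubgroup
  obtain ⟨φ, hφ⟩ := hσD
  -- a power of `σ` fixing `F₁`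
  have hker : F₁.fixingSubgroup = (AlgEquiv.restrictNormalHom (F := ℚ) (K₁ := Qb) F₁).ker :=
    Fermat.Agent.S55.Glue.fixingSubgroup_eq_ker F₁
  set m := orderOf (AlgEquiv.restrictNormalHom (F := ℚ) (K₁ := Qb) F₁ σ) with hm
  have hm0 : m ≠ 0 := (orderOf_pos _).ne'
  have hσm : σ ^ m ∈ F₁.fixingSubgroup := by
    rw [hker, MonoidHom.mem_ker, map_pow, hm, pow_orderOf_eq_one]
  -- the root of unity
  have hp1 : p - 1 ≠ 0 := by have := hp.out.two_le; omega
  have hT : 1 < (w : ℕ) ^ (m * (p - 1)) := Nat.one_lt_pow (Nat.mul_ne_zero hm0 hp1) hw.one_lt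
  set T := (w : ℕ) ^ (m * (p - 1)) - 1 with hTdef
  have hTpos : 0 < T := by omega
  have hpT : ¬ p ^ T ∣ T := Nat.not_dvd_of_pos_of_lt hTpos (Nat.lt_pow_self hp.out.one_lt)
  have hpK : p ^ T ≠ 0 := pow_ne_zero _ hp.out.ne_zero
  haveI : NeZero (p ^ T) := ⟨hpK⟩
  obtain ⟨ζ, hζ⟩ := HasEnoughRootsOfUnity.exists_primitiveRoot Qb (p ^ T)
  have hζ1 : ζ ^ (p ^ T) = 1 := hζ.pow_eq_one
  have hint : IsIntegral ℚ ζ := (hζ.isIntegral (Nat.pos_of_ne_zero hpK)).tower_top
  set C : IntermediateField ℚ Qb := IntermediateField.adjoin ℚ {ζ} with hC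
  have hζC : ζ ∈ C := IntermediateField.mem_adjoin_simple_self ℚ ζ
  have hCunr : C.IsUnramifiedOutside {pPrime p} := by
    refine ⟨IntermediateField.adjoin.finiteDimensional hint, fun q hq B hB τ hτ => ?_⟩
    have hne : (q : ℕ) ≠ p := by
      intro h
      apply hq
      rw [Finset.mem_singleton]
      exact Subtype.ext h
    apply Fermat.Agent.S55.Glue.LocalRange.mem_fixingSubgroup_adjoin_of_forall
    intro x hx
    rw [Set.mem_singleton_iff] at hx
    rw [hx]
    exact Fermat.Agent.S31.Cyclo.inertia_apply_root B q.2 hp.out hne hB hτ hζ1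
  obtain ⟨F₂, hF₁₂, hCF₂, hF₂, hF₂n⟩ :=
    Fermat.Agent.S55.Glue.exists_normal_isUnramifiedOutside
      (hF₁.mono (Finset.subset_union_left (s₂ := {pPrime p})))
      (hCunr.mono (Finset.subset_union_right (s₁ := S₁)))
  have hwS₂ : w ∉ S₁ ∪ {pPrime p} := by
    rw [Finset.mem_union, Finset.mem_singleton]
    rintro (h | h)
    · exact hwS h
    · exact hwp (by rw [h]; rfl)
  haveI : FiniteDimensional ℚ F₂ := hF₂.1
  haveI : Normal ℚ F₂ := hF₂n
  have hinert : A.inertiaSubgroupIn ℚ ≤ F₂.fixingSubgroup := hF₂.2 w hwS₂ A hA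
  refine ⟨φ, m, F₂, hF₁₂, hF₂, hF₂n, ?_, ?_, ?_⟩
  · rw [map_pow, hφ]
    exact hσm
  · intro g
    have hτ : primeLocalToGlobal w g ∈ A.decompositionSubgroup ℚ := by
      rw [hAdef, ← Fermat.Agent.S55.Glue.LocalRange.range_primeLocalToGlobal]
      exact ⟨g, rfl⟩
    obtain ⟨j, hj⟩ := Fermat.Agent.S55.Arith.FrobGen.exists_pow_inv_mul_mem_fixingSubgroup
      A hw hA hσ hτ F₂ hinert
    refine ⟨j, ?_⟩
    rw [map_mul, map_inv, map_pow, hφ]
    exact hj
  · intro t ht
    rw [map_pow, hφ] at ht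
    have h1 : (σ ^ (m * t)) ζ = ζ :=
      (IntermediateField.mem_fixingSubgroup_iff F₂ _).1 ht ζ (hCF₂ hζC)
    have h2 : (σ ^ (m * t)) ζ = ζ ^ ((w : ℕ) ^ (m * t)) :=
      Fermat.Agent.S31.Cyclo.frobenius_pow_apply_root A hw hp.out hwp hA hσ hζ1 (m * t)
    have h3 : ζ ^ ((w : ℕ) ^ (m * t)) = ζ ^ 1 := by rw [← h2, h1, pow_one]
    have h4 : (w : ℕ) ^ (m * t) ≡ 1 [MOD p ^ T] := by
      have hpos : 1 ≤ (w : ℕ) ^ (m * t) := Nat.one_le_pow _ _ hw.pos
      have hζ0 : ζ ≠ 0 := hζ.ne_zero hpK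
      have h3' : ζ ^ ((w : ℕ) ^ (m * t) - 1) = 1 := by
        have h3'' : ζ ^ ((w : ℕ) ^ (m * t) - 1) * ζ = 1 * ζ := by
          rw [← pow_succ, Nat.sub_add_cancel hpos, one_mul]
          simpa using h3
        exact mul_right_cancel₀ hζ0 h3''
      have hdvd : p ^ T ∣ (w : ℕ) ^ (m * t) - 1 := (hζ.pow_eq_one_iff_dvd _).1 h3'
      exact ((Nat.modEq_iff_dvd' hpos).2 hdvd).symm
    have h5 : ((w : ℕ) ^ m) ^ t ≡ 1 [MOD p ^ T] := by rwa [← pow_mul]
    refine dvd_of_pow_modEq_one hp.out ?_ h5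
    rw [← pow_mul]
    intro h6
    apply hpT
    have h7 := (Nat.modEq_iff_dvd' hT.le).1 h6.symm
    exact h7

/-- **Vanishing of unramified `H²`, cochain form.**  Let `w ≠ p` be primes, `M` a representation
of `G_ℚ` over a ring `k` in which `p = 0`, unramified at `w` (trivial on `Fix F₀` for a finite
`F₀/ℚ` unramified outside a finite set of primes not containing `w`).  Then every unramified
2-cocycle of the local Galois group at `w` with values in `M` is the coboundary of an unramified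
1-cochain. -/
theorem exists_isUnram₁_d₁₂_eq (p : ℕ) [hp : Fact p.Prime] (w : Nat.Primes) (hwp : (w : ℕ) ≠ p)
    {k : Type} [CommRing k] (hpk : (p : k) = 0) (M : Rep.{0} k Gq)
    (hM : ∃ S₀ : Finset Nat.Primes, w ∉ S₀ ∧ ∃ F₀ : IntermediateField ℚ Qb,
      F₀.IsUnramifiedOutside S₀ ∧ ∀ s ∈ F₀.fixingSubgroup, M.ρ s = 1)
    (f : primeLocalGaloisGroup w × primeLocalGaloisGroup w → M)
    (hf : f ∈ cocycles₂ (Rep.res (primeLocalToGlobal w) M)) (hfu : IsUnram₂ w f) :
    ∃ x : primeLocalGaloisGroup w → M, IsUnram₁ w x ∧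
      (d₁₂ (Rep.res (primeLocalToGlobal w) M)).hom x = f := by
  classical
  obtain ⟨S', hwS', F, hF, hfF⟩ := hfu
  obtain ⟨S₀, hwS₀, F₀, hF₀, hMF₀⟩ := hM
  -- a common Galois level
  have hwS₁ : w ∉ S' ∪ S₀ := by simp [hwS', hwS₀]
  obtain ⟨F₁, hFF₁, hF₀F₁, hF₁, hF₁n⟩ :=
    Fermat.Agent.S55.Glue.exists_normal_isUnramifiedOutside
      (hF.mono (Finset.subset_union_left (s₂ := S₀)))
      (hF₀.mono (Finset.subset_union_right (s₁ := S')))
  haveI : Normal ℚ F₁ := hF₁n
  obtain ⟨φ, m, F₂, hF₁₂, hF₂, hF₂n, hφm, hgen, hpt⟩ :=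
    exists_tower p w hwp (S' ∪ S₀) hwS₁ F₁ hF₁
  haveI : Normal ℚ F₂ := hF₂n
  haveI : FiniteDimensional ℚ F₂ := hF₂.1
  set r := primeLocalToGlobal w with hr
  -- the two levels on the local group
  let N : Subgroup (primeLocalGaloisGroup w) := F₁.fixingSubgroup.comap r
  let N' : Subgroup (primeLocalGaloisGroup w) := F₂.fixingSubgroup.comap r
  have hnorm : ∀ (E : IntermediateField ℚ Qb) [Normal ℚ E], (E.fixingSubgroup.comap r).Normal := by
    intro E _
    have : E.fixingSubgroup.Normal := by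
      rw [Fermat.Agent.S55.Glue.fixingSubgroup_eq_ker E]
      exact MonoidHom.normal_ker _
    exact Subgroup.Normal.comap this r
  haveI : N.Normal := hnorm F₁
  haveI : N'.Normal := hnorm F₂
  have hle : N' ≤ N := fun s hs =>
    IntermediateField.fixingSubgroup_antitone hF₁₂ (Subgroup.mem_comap.1 hs)
  -- finiteness of the quotient
  have hN'ker : N' = ((AlgEquiv.restrictNormalHom (F := ℚ) (K₁ := Qb) F₂).comp r).ker := by
    ext s
    rw [MonoidHom.mem_ker, MonoidHom.comp_apply, ← MonoidHom.mem_ker,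
      ← Fermat.Agent.S55.Glue.fixingSubgroup_eq_ker F₂]
    exact Subgroup.mem_comap
  haveI : N'.FiniteIndex := by
    rw [hN'ker]
    infer_instance
  -- the module is killed by `p`
  have hpM : ∀ a : (Rep.res r M), p • a = 0 := by
    intro a
    have h1 : ((p : k)) • a = 0 := by rw [hpk, zero_smul]
    rwa [Nat.cast_smul_eq_nsmul] at h1
  have hMN' : ∀ s ∈ N', (Rep.res r M).ρ s = 1 := by
    intro s hs
    have h1 : r s ∈ F₀.fixingSubgroup :=
      IntermediateField.fixingSubgroup_antitone (hF₀F₁.trans hF₁₂) (Subgroup.mem_comap.1 hs)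
    exact hMF₀ _ h1
  have hfN : ∀ g g' s s' : primeLocalGaloisGroup w, s ∈ N → s' ∈ N →
      f (g * s, g' * s') = f (g, g') := by
    intro g g' s s' hs hs'
    exact hfF g g' s s'
      (IntermediateField.fixingSubgroup_antitone hFF₁ (Subgroup.mem_comap.1 hs))
      (IntermediateField.fixingSubgroup_antitone hFF₁ (Subgroup.mem_comap.1 hs'))
  obtain ⟨x, hxN', hx⟩ := Fermat.Agent.S55.Arith.UnramCore.exists_primitive (Rep.res r M) p hpM
    N N' hle φ (fun g => by
      obtain ⟨j, hj⟩ := hgen g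
      exact ⟨j, Subgroup.mem_comap.2 hj⟩) m (Subgroup.mem_comap.2 hφm)
    (fun t ht => hpt t (Subgroup.mem_comap.1 ht)) hMN' f hf hfN
  have hw₂ : w ∉ (S' ∪ S₀) ∪ {pPrime p} := by
    rw [Finset.mem_union, Finset.mem_singleton]
    rintro (h | h)
    · exact hwS₁ h
    · exact hwp (by rw [h]; rfl)
  exact ⟨x, ⟨_, hw₂, F₂, hF₂, fun g s hs => hxN' g s (Subgroup.mem_comap.2 hs)⟩, hx⟩

/-- An unramified local 2-cocycle with values in an unramified module killed by `p ≠ w` is a
continuous (level-constant) coboundary. -/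
theorem mem_levelCoboundaries₂_of_isUnram₂ (p : ℕ) [hp : Fact p.Prime] (w : Nat.Primes)
    (hwp : (w : ℕ) ≠ p) {k : Type} [CommRing k] (hpk : (p : k) = 0) (M : Rep.{0} k Gq)
    (hM : ∃ S₀ : Finset Nat.Primes, w ∉ S₀ ∧ ∃ F₀ : IntermediateField ℚ Qb,
      F₀.IsUnramifiedOutside S₀ ∧ ∀ s ∈ F₀.fixingSubgroup, M.ρ s = 1)
    (f : primeLocalGaloisGroup w × primeLocalGaloisGroup w → M)
    (hf : f ∈ cocycles₂ (Rep.res (primeLocalToGlobal w) M)) (hfu : IsUnram₂ w f) :
    f ∈ levelCoboundaries₂ (primeLocalToGlobal w) (Rep.res (primeLocalToGlobal w) M) := by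
  obtain ⟨x, hxu, hx⟩ := exists_isUnram₁_d₁₂_eq p w hwp hpk M hM f hf hfu
  exact (mem_levelCoboundaries₂_iff _ _ _).2 ⟨x, hxu.isLevelConstant₁, hx⟩

end Fermat.Agent.S55.Arith.Unram
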