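/-
`UrEval`: the (UR) inputs of `Base/EvalQ` (EVAL over `ℚ`), in its literal vocabulary — the
unramified local level family `EvalQ.urLevel w` — from `Arith/UnramLocal`.

* `isLev₁_urLevel_iff`, `isLev₂_urLevel_iff` : `IsLev_i (urLevel w)` is `Unram.IsUnram_i w`;
* `exists_C1_urLevel_primitive` : for a discrete `𝔽_p[G_ℚ]`-module `N` (level `S ∋ p`) and
  `w ∉ S`, every unramified local 2-cocycle `z ∈ Z2 (urLevel w) (Res_w N)` is `d t` with
  `t ∈ C1 (urLevel w) (Res_w N)` (the unramified primitives `t' w`, `m w` of `P2_eval`/`P1_eval`);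
* `Z2_urLevel_le_B2` : hence `Z2 (urLevel w) (Res_w N) ≤ B2 (localLevel _) (Res_w N)`;
* `hUR` : the literal hypothesis `hUR` of `EvalQ.exists_arithInput` (coefficients `μ_p`).
-/
import Fermat.Agent.S55.Base.EvalQ
import Fermat.Agent.S55.Arith.UnramLocal

set_option autoImplicit false

open CategoryTheory groupCohomology ExtCitation

namespace Fermat.Agent.S55.Arith.UrEval

open Fermat.Agent.S55.Abs Fermat.Agent.S55.Base.EvalQ

theorem isLev₁_urLevel_iff (w : Nat.Primes) {X : Type*} (f : primeLocalGaloisGroup w → X) :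
    IsLev₁ (urLevel w) f ↔ Unram.IsUnram₁ w f := by
  constructor
  · rintro ⟨_, ⟨T, F, hT, hF, rfl⟩, h⟩
    exact ⟨T, hT, F, hF, fun g s hs => h g s (Subgroup.mem_comap.2 hs)⟩
  · rintro ⟨T, hT, F, hF, h⟩
    exact ⟨_, ⟨T, F, hT, hF, rfl⟩, fun g s hs => h g s (Subgroup.mem_comap.1 hs)⟩

theorem isLev₂_urLevel_iff (w : Nat.Primes) {X : Type*}
    (f : primeLocalGaloisGroup w × primeLocalGaloisGroup w → X) :
    IsLev₂ (urLevel w) f ↔ Unram.IsUnram₂ w f := by
  constructor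
  · rintro ⟨_, ⟨T, F, hT, hF, rfl⟩, h⟩
    exact ⟨T, hT, F, hF, fun g g' s s' hs hs' =>
      h g g' s s' (Subgroup.mem_comap.2 hs) (Subgroup.mem_comap.2 hs')⟩
  · rintro ⟨T, hT, F, hF, h⟩
    exact ⟨_, ⟨T, F, hT, hF, rfl⟩, fun g g' s s' hs hs' =>
      h g g' s s' (Subgroup.mem_comap.1 hs) (Subgroup.mem_comap.1 hs')⟩

variable {p : ℕ} [Fact p.Prime] {S : Finset Nat.Primes}

/-- **(UR) in the vocabulary of `EvalQ`, general coefficients.**  For a discrete
`𝔽_p[G_ℚ]`-module `N` of level `S ∋ p` and a prime `w ∉ S`, every unramified local 2-cocycle at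
`w` with values in `N` is the coboundary of an unramified local 1-cochain. -/
theorem exists_C1_urLevel_primitive (hpS : pPrime p ∈ S) (N : Rep.{0} (ZMod p) GQ)
    (hN : IsDisc (globalLevel S) N) {w : Nat.Primes} (hw : w ∉ S)
    (z : primeLocalGaloisGroup w × primeLocalGaloisGroup w → Rep.res (primeLocalToGlobal w) N)
    (hz : z ∈ Z2 (urLevel w) (Rep.res (primeLocalToGlobal w) N)) :
    ∃ t ∈ C1 (urLevel w) (Rep.res (primeLocalToGlobal w) N),
      (d₁₂ (Rep.res (primeLocalToGlobal w) N)).hom t = z := by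
  obtain ⟨_, ⟨F₀, hF₀, rfl⟩, h⟩ := hN
  have hM : ∃ S₀ : Finset Nat.Primes, w ∉ S₀ ∧ ∃ F : IntermediateField ℚ (AlgebraicClosure ℚ),
      F.IsUnramifiedOutside S₀ ∧ ∀ s ∈ F.fixingSubgroup, N.ρ s = 1 :=
    ⟨S, hw, F₀, hF₀, fun s hs => LinearMap.ext fun m => h s hs m⟩
  have hpk : ((p : ℕ) : ZMod p) = 0 := ZMod.natCast_self p
  have hwp : (w : ℕ) ≠ p := by
    intro h'
    apply hw
    have : w = pPrime p := Subtype.ext h'
    rw [this]
    exact hpS
  obtain ⟨x, hx, hxz⟩ := Unram.exists_isUnram₁_d₁₂_eq p w hwp hpk N hM z hz.2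
    ((isLev₂_urLevel_iff w z).1 hz.1)
  exact ⟨x, (isLev₁_urLevel_iff w x).2 hx, hxz⟩

/-- Unramified local 2-cocycles outside `S` are level coboundaries (general coefficients). -/
theorem Z2_urLevel_le_B2 (hpS : pPrime p ∈ S) (N : Rep.{0} (ZMod p) GQ)
    (hN : IsDisc (globalLevel S) N) {w : Nat.Primes} (hw : w ∉ S) :
    Z2 (urLevel w) (Rep.res (primeLocalToGlobal w) N)
      ≤ B2 (localLevel (primeLocalToGlobal w)) (Rep.res (primeLocalToGlobal w) N) := by
  intro z hz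
  obtain ⟨t, ht, htz⟩ := exists_C1_urLevel_primitive hpS N hN hw z hz
  exact ⟨t, C1_urLevel_le w _ ht, htz⟩

/-- **The hypothesis `hUR` of `EvalQ.exists_arithInput`, literally.** -/
theorem hUR (hpS : pPrime p ∈ S) :
    ∀ w, w ∉ S → Z2 (urLevel w) (Rep.res (primeLocalToGlobal w) (muRep (cycloChar p)))
      ≤ B2 (localLevel (primeLocalToGlobal w))
        (Rep.res (primeLocalToGlobal w) (muRep (cycloChar p))) :=
  fun _ hw => Z2_urLevel_le_B2 hpS (muRep (cycloChar p)) (isDisc_mu p S hpS) hw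

end Fermat.Agent.S55.Arith.UrEval
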