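/-
`LamUR`: the hypothesis (UR) of `Trace/LamS.exists_lamS'` — "unramified local 2-cocycles at a
prime `q ∉ S` are coboundaries of (unramified, hence level-constant) local 1-cochains" — in the
literal vocabulary of `Trace/LamS` (`IsUr₁`, `IsUr₂`, `ur2`), from `Arith/UnramLocal`.

* `isUr₁_iff`, `isUr₂_iff` : the predicates of `Trace/LamS` and of `Arith/UnramLocal` agree;
* `exists_isUr₁_primitive` : (UR) for ANY discrete coefficient module `N` of `G_ℚ` over `𝔽_p`
  (`IsDisc (globalLevel S) N`), at every `q ∉ S`, with an UNRAMIFIED primitive;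
* `hUR`                    : the literal hypothesis `hUR` of `exists_lamS'` (coefficients `μ_p`);
* `exists_lamS_of_rec`     : `exists_lamS'` with (UR) discharged: the trace functional exists as
  soon as the local functionals `inv q` kill level-constant coboundaries and satisfy reciprocity.
-/
import Fermat.Agent.S55.Trace.LamS
import Fermat.Agent.S55.Arith.UnramLocal

set_option autoImplicit false

open CategoryTheory groupCohomology ExtCitation

namespace Fermat.Agent.S55.Arith.LamUR

open Fermat.Agent.S55.Abs Fermat.Agent.S55.Trace.LamS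

theorem isUr₁_iff (q : Nat.Primes) {X : Type*} (f : primeLocalGaloisGroup q → X) :
    IsUr₁ q f ↔ Unram.IsUnram₁ q f := Iff.rfl

theorem isUr₂_iff (q : Nat.Primes) {X : Type*}
    (f : primeLocalGaloisGroup q × primeLocalGaloisGroup q → X) :
    IsUr₂ q f ↔ Unram.IsUnram₂ q f := Iff.rfl

variable (p : ℕ) [Fact p.Prime]

/-- A prime outside `S ∋ p` is different from `p`. -/
theorem ne_of_notMem {S : Finset Nat.Primes} (hpS : pPrime p ∈ S) {q : Nat.Primes}
    (hq : q ∉ S) : (q : ℕ) ≠ p := by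
  intro h
  apply hq
  have : q = pPrime p := Subtype.ext h
  rw [this]
  exact hpS

/-- **(UR), general coefficients.**  Let `N` be a discrete `𝔽_p[G_ℚ]`-module for the level
family of `S ∋ p` and `q ∉ S`.  Every unramified local 2-cocycle at `q` with values in `N` is
the coboundary of an unramified local 1-cochain. -/
theorem exists_isUr₁_primitive {S : Finset Nat.Primes} (hpS : pPrime p ∈ S)
    (N : Rep.{0} (ZMod p) GQ) (hN : IsDisc (globalLevel S) N) {q : Nat.Primes} (hq : q ∉ S)
    (z : primeLocalGaloisGroup q × primeLocalGaloisGroup q → Rep.res (primeLocalToGlobal q) N)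
    (hz : IsUr₂ q z) (hdz : (d₂₃ (Rep.res (primeLocalToGlobal q) N)).hom z = 0) :
    ∃ x : primeLocalGaloisGroup q → Rep.res (primeLocalToGlobal q) N,
      IsUr₁ q x ∧ (d₁₂ (Rep.res (primeLocalToGlobal q) N)).hom x = z := by
  obtain ⟨_, ⟨F₀, hF₀, rfl⟩, h⟩ := hN
  have hM : ∃ S₀ : Finset Nat.Primes, q ∉ S₀ ∧ ∃ F : IntermediateField ℚ (AlgebraicClosure ℚ),
      F.IsUnramifiedOutside S₀ ∧ ∀ s ∈ F.fixingSubgroup, N.ρ s = 1 :=
    ⟨S, hq, F₀, hF₀, fun s hs => LinearMap.ext fun m => h s hs m⟩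
  have hpk : ((p : ℕ) : ZMod p) = 0 := ZMod.natCast_self p
  have hcoc : z ∈ cocycles₂ (Rep.res (primeLocalToGlobal q) N) := LinearMap.mem_ker.2 hdz
  exact Unram.exists_isUnram₁_d₁₂_eq p q (ne_of_notMem p hpS hq) hpk N hM z hcoc
    ((isUr₂_iff q z).1 hz)

/-- **(UR), level-constant form, general coefficients.** -/
theorem exists_C1_primitive {S : Finset Nat.Primes} (hpS : pPrime p ∈ S)
    (N : Rep.{0} (ZMod p) GQ) (hN : IsDisc (globalLevel S) N) {q : Nat.Primes} (hq : q ∉ S)
    (z : primeLocalGaloisGroup q × primeLocalGaloisGroup q → Rep.res (primeLocalToGlobal q) N)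
    (hz : IsUr₂ q z) (hdz : (d₂₃ (Rep.res (primeLocalToGlobal q) N)).hom z = 0) :
    ∃ x ∈ C1 (localLevel (primeLocalToGlobal q)) (Rep.res (primeLocalToGlobal q) N),
      (d₁₂ (Rep.res (primeLocalToGlobal q) N)).hom x = z := by
  obtain ⟨x, hx, hxz⟩ := exists_isUr₁_primitive p hpS N hN hq z hz hdz
  exact ⟨x, hx.isLev₁, hxz⟩

/-- **The hypothesis `hUR` of `Trace/LamS.exists_lamS'`, literally.** -/
theorem hUR {S : Finset Nat.Primes} (hpS : pPrime p ∈ S) :
    ∀ q : Nat.Primes, q ∉ S → ∀ z ∈ ur2 p q, (d₂₃ (muLoc p q)).hom z = 0 →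
      ∃ x ∈ C1 (localLevel (primeLocalToGlobal q)) (muLoc p q), (d₁₂ (muLoc p q)).hom x = z :=
  fun _ hq z hz hdz => exists_C1_primitive p hpS (mu p) (isDisc_mu p _ hpS) hq z hz hdz

/-- **The trace functional from reciprocity.**  `exists_lamS'` with (UR) discharged: if the
local functionals `inv q` kill the coboundaries of level-constant local 1-cochains and satisfy
reciprocity at every finite level `T ⊇ S`, the functional `lam : LamS p S` exists, with the
`EvalCup.Star` property. -/
theorem exists_lamS_of_rec {S : Finset Nat.Primes} (hpS : pPrime p ∈ S)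
    (inv : ∀ q : Nat.Primes,
      (primeLocalGaloisGroup q × primeLocalGaloisGroup q → muLoc p q) →ₗ[ZMod p] ZMod p)
    (hcob : ∀ (q : Nat.Primes), ∀ f ∈ C1 (localLevel (primeLocalToGlobal q)) (muLoc p q),
      inv q ((d₁₂ (muLoc p q)).hom f) = 0)
    (hrec : ∀ T : Finset Nat.Primes, S ⊆ T → ∀ z ∈ lev2 p T, (d₂₃ (mu p)).hom z = 0 →
      ∑ q ∈ T, inv q (Base.EvalCup.res₂ (primeLocalToGlobal q) (mu p) z) = 0) :
    ∃ (lam0 : ((GQ × GQ × GQ → mu p) ×
          (∀ v : ↥S, primeLocalGaloisGroup v × primeLocalGaloisGroup v → muLoc p v))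
          →ₗ[ZMod p] ZMod p) (lam : LamS p S),
      Base.EvalCup.Star (fun q : Nat.Primes => primeLocalToGlobal q) S lam0 inv (lev2 p) (ur2 p) ∧
      (∀ x : ↥(Cc3 (globalLevel S) (fun q : ↥S => primeLocalToGlobal q.1)
          (fun q : ↥S => localLevel (primeLocalToGlobal q.1)) (mu p)),
        lam (Submodule.Quotient.mk x) = lam0 x.1) ∧
      (∀ B : ∀ v : ↥S, primeLocalGaloisGroup v × primeLocalGaloisGroup v → muLoc p v,
        lam0 (0, B) = ∑ v : ↥S, inv v (B v)) ∧
      (∀ (e : GQ × GQ → mu p)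
        (B : ∀ v : ↥S, primeLocalGaloisGroup v × primeLocalGaloisGroup v → muLoc p v),
        e ∈ lev2 p S → lam0 ((d₂₃ (mu p)).hom e, B)
          = ∑ v : ↥S, inv v (B v - Base.EvalCup.res₂ (primeLocalToGlobal v) (mu p) e)) :=
  exists_lamS' p S inv hcob (hUR p hpS) hrec

end Fermat.Agent.S55.Arith.LamUR
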