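/-
`LineFunctional`: a normalised linear functional on a space of cochains from a one-dimensional
cohomology group (the generic linear-algebra brick behind "the local invariant as a functional
on ALL local 2-cochains").

Setting: `V` a vector space over a field `k` (cochains), `Z ≤ V` (cocycles), `B ≤ V`
(coboundaries), `finrank (Z ⧸ B.comap Z.subtype) = 1` (the cohomology is a line), and a cocycle
`c₀ ∈ Z`, `c₀ ∉ B`.

* `exists_functional` : there is `lam : V →ₗ[k] k` with `lam c₀ = 1`, `lam = 0` on `B ⊓ Z`, and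
  `z ∈ Z`, `lam z = 0 ⟹ z ∈ B`; moreover `lam z • c₀ - z ∈ B` for every `z ∈ Z`;
* `exists_functional_of_le` : the same when `B ≤ Z` (`lam = 0` on all of `B`);
* `exists_functional_continuousH2` : the Prelude instance `Z = levelCocycles₂ r M`,
  `B = levelCoboundaries₂ r M`, `Z ⧸ B.comap _ = continuousH2 r M`.

Mathlib + the Prelude definition of `continuousH2` only.
-/
import Mathlib
import Fermat.Prelude.Def_GroupCohomology_ContinuousH2

set_option autoImplicit false

namespace Fermat.Agent.S55.Arith.LineFunctional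

open Module

/-- **The normalised functional of a line of classes.** -/
theorem exists_functional {k V : Type*} [Field k] [AddCommGroup V] [Module k V]
    (Z B : Submodule k V) (hfin : finrank k (↥Z ⧸ B.comap Z.subtype) = 1)
    (c₀ : V) (hc₀ : c₀ ∈ Z) (hc₀' : c₀ ∉ B) :
    ∃ lam : V →ₗ[k] k, lam c₀ = 1 ∧ (∀ b ∈ B, b ∈ Z → lam b = 0) ∧
      (∀ z ∈ Z, lam z = 0 → z ∈ B) ∧ ∀ z ∈ Z, lam z • c₀ - z ∈ B := by
  set π : ↥Z →ₗ[k] (↥Z ⧸ B.comap Z.subtype) := (B.comap Z.subtype).mkQ with hπ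
  have hπ0 : ∀ z : ↥Z, π z = 0 ↔ (z : V) ∈ B := by
    intro z
    rw [hπ, Submodule.mkQ_apply, Submodule.Quotient.mk_eq_zero, Submodule.mem_comap,
      Submodule.subtype_apply]
  set e : ↥Z ⧸ B.comap Z.subtype := π ⟨c₀, hc₀⟩ with he
  have he0 : e ≠ 0 := fun h => hc₀' ((hπ0 ⟨c₀, hc₀⟩).1 h)
  have hspan : ∀ w : ↥Z ⧸ B.comap Z.subtype, ∃ c : k, c • e = w :=
    (finrank_eq_one_iff_of_nonzero' e he0).1 hfin
  obtain ⟨φ, hφ⟩ := Module.Projective.exists_dual_eq_one k he0
  obtain ⟨lam, hlam⟩ := LinearMap.exists_extend (φ.comp π)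
  have hlamZ : ∀ z : ↥Z, lam (z : V) = φ (π z) := by
    intro z
    have := congrArg (fun f : ↥Z →ₗ[k] k => f z) hlam
    simpa using this
  have hkey : ∀ z : ↥Z, π z = lam (z : V) • e := by
    intro z
    obtain ⟨c, hc⟩ := hspan (π z)
    have h1 : lam (z : V) = c := by
      rw [hlamZ z, ← hc, map_smul, hφ, smul_eq_mul, mul_one]
    rw [h1, hc]
  refine ⟨lam, ?_, ?_, ?_, ?_⟩
  · have := hlamZ ⟨c₀, hc₀⟩
    rw [this]
    exact hφ
  · intro b hb hbZ
    have h1 := hlamZ ⟨b, hbZ⟩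
    have h2 : π ⟨b, hbZ⟩ = 0 := (hπ0 ⟨b, hbZ⟩).2 hb
    rw [h2, map_zero] at h1
    exact h1
  · intro z hz hlz
    have h1 := hkey ⟨z, hz⟩
    have h2 : lam ((⟨z, hz⟩ : ↥Z) : V) = 0 := hlz
    rw [h2, zero_smul] at h1
    exact (hπ0 ⟨z, hz⟩).1 h1
  · intro z hz
    have h1 := hkey ⟨z, hz⟩
    have h2 : π (lam z • (⟨c₀, hc₀⟩ : ↥Z) - ⟨z, hz⟩) = 0 := by
      rw [map_sub, map_smul, h1]
      exact sub_self _
    exact (hπ0 _).1 h2

/-- Variant of `exists_functional` when the coboundaries are cocycles. -/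
theorem exists_functional_of_le {k V : Type*} [Field k] [AddCommGroup V] [Module k V]
    (Z B : Submodule k V) (hBZ : B ≤ Z) (hfin : finrank k (↥Z ⧸ B.comap Z.subtype) = 1)
    (c₀ : V) (hc₀ : c₀ ∈ Z) (hc₀' : c₀ ∉ B) :
    ∃ lam : V →ₗ[k] k, lam c₀ = 1 ∧ (∀ b ∈ B, lam b = 0) ∧
      (∀ z ∈ Z, lam z = 0 → z ∈ B) ∧ ∀ z ∈ Z, lam z • c₀ - z ∈ B := by
  obtain ⟨lam, h1, h2, h3, h4⟩ := exists_functional Z B hfin c₀ hc₀ hc₀'
  exact ⟨lam, h1, fun b hb => h2 b hb (hBZ hb), h3, h4⟩

/-- A one-dimensional quotient has a cocycle which is not a coboundary. -/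
theorem exists_mem_notMem {k V : Type*} [Field k] [AddCommGroup V] [Module k V]
    (Z B : Submodule k V) (hfin : finrank k (↥Z ⧸ B.comap Z.subtype) = 1) :
    ∃ c₀ ∈ Z, c₀ ∉ B := by
  by_contra h
  push Not at h
  have hsub : Subsingleton (↥Z ⧸ B.comap Z.subtype) := by
    refine ⟨fun a b => ?_⟩
    induction a using Submodule.Quotient.induction_on with
    | H x =>
      induction b using Submodule.Quotient.induction_on with
      | H y =>
        rw [Submodule.Quotient.eq, Submodule.mem_comap]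
        exact h _ (Z.sub_mem x.2 y.2)
  have := finrank_zero_of_subsingleton (R := k) (M := ↥Z ⧸ B.comap Z.subtype)
  omega

/-- A functional on a line of classes which is nonzero, without a chosen generator. -/
theorem exists_functional' {k V : Type*} [Field k] [AddCommGroup V] [Module k V]
    (Z B : Submodule k V) (hBZ : B ≤ Z) (hfin : finrank k (↥Z ⧸ B.comap Z.subtype) = 1) :
    ∃ lam : V →ₗ[k] k, (∀ b ∈ B, lam b = 0) ∧ (∀ z ∈ Z, lam z = 0 → z ∈ B) ∧
      ∃ c₀ ∈ Z, lam c₀ = 1 := by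
  obtain ⟨c₀, hc₀, hc₀'⟩ := exists_mem_notMem Z B hfin
  obtain ⟨lam, h1, h2, h3, -⟩ := exists_functional_of_le Z B hBZ hfin c₀ hc₀ hc₀'
  exact ⟨lam, h2, h3, c₀, hc₀, h1⟩

section Prelude

open groupCohomology

universe u

variable {k : Type u} [Field k] {G : Type u} [Group G]
  (r : G →* (AlgebraicClosure ℚ ≃ₐ[ℚ] AlgebraicClosure ℚ)) (M : Rep k G)

/-- **The Prelude instance.**  If `continuousH2 r M` is a line and `c₀` is a level 2-cocycle
which is not a level coboundary, there is a linear functional on ALL 2-cochains with `lam c₀ = 1`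
which kills the level coboundaries that are level cocycles and is injective on classes. -/
theorem exists_functional_continuousH2 (hfin : finrank k (continuousH2 r M) = 1)
    (c₀ : G × G → M) (hc₀ : c₀ ∈ levelCocycles₂ r M) (hc₀' : c₀ ∉ levelCoboundaries₂ r M) :
    ∃ lam : (G × G → M) →ₗ[k] k, lam c₀ = 1 ∧
      (∀ b ∈ levelCoboundaries₂ r M, b ∈ levelCocycles₂ r M → lam b = 0) ∧
      (∀ z ∈ levelCocycles₂ r M, lam z = 0 → z ∈ levelCoboundaries₂ r M) ∧
      ∀ z ∈ levelCocycles₂ r M, lam z • c₀ - z ∈ levelCoboundaries₂ r M :=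
  exists_functional (levelCocycles₂ r M) (levelCoboundaries₂ r M) hfin c₀ hc₀ hc₀'

/-- The Prelude instance, when level coboundaries are level cocycles (discrete coefficients). -/
theorem exists_functional_continuousH2_of_le
    (hBZ : levelCoboundaries₂ r M ≤ levelCocycles₂ r M)
    (hfin : finrank k (continuousH2 r M) = 1)
    (c₀ : G × G → M) (hc₀ : c₀ ∈ levelCocycles₂ r M) (hc₀' : c₀ ∉ levelCoboundaries₂ r M) :
    ∃ lam : (G × G → M) →ₗ[k] k, lam c₀ = 1 ∧
      (∀ b ∈ levelCoboundaries₂ r M, lam b = 0) ∧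
      (∀ z ∈ levelCocycles₂ r M, lam z = 0 → z ∈ levelCoboundaries₂ r M) ∧
      ∀ z ∈ levelCocycles₂ r M, lam z • c₀ - z ∈ levelCoboundaries₂ r M :=
  exists_functional_of_le (levelCocycles₂ r M) (levelCoboundaries₂ r M) hBZ hfin c₀ hc₀ hc₀'

end Prelude

end Fermat.Agent.S55.Arith.LineFunctional
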